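import Mathlib

set_option autoImplicit false

namespace Fermat.Agent.S16.H722

open Finset Polynomial

noncomputable section

variable {p : ℕ} [Fact p.Prime]

lemma isPrimitiveRoot_stdAddChar_one : IsPrimitiveRoot (ZMod.stdAddChar (1 : ZMod p)) p := by
  have h := Complex.isPrimitiveRoot_exp p (Fact.out : p.Prime).ne_zero
  have h2 := ZMod.stdAddChar_coe (N := p) 1
  simp only [Int.cast_one, mul_one] at h2
  rw [h2]
  exact h

lemma stdAddChar_eq_pow (c : ZMod p) :
    ZMod.stdAddChar c = ZMod.stdAddChar (1 : ZMod p) ^ c.val := by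
  rw [← AddChar.map_nsmul_eq_pow]
  congr 1
  simp

/-- A rational linear relation `∑_c a(c) ζ^c = 0` among the `p`-th roots of unity forces `a` to be
constant. -/
theorem const_of_sum_stdAddChar_eq_zero (a : ZMod p → ℚ)
    (h : ∑ c : ZMod p, (a c : ℂ) * ZMod.stdAddChar c = 0) (c : ZMod p) : a c = a 0 := by
  have hp : p.Prime := Fact.out
  set ζ : ℂ := ZMod.stdAddChar (1 : ZMod p) with hζ
  have hprim : IsPrimitiveRoot ζ p := isPrimitiveRoot_stdAddChar_one
  -- the polynomial
  set A : ℚ[X] := ∑ c : ZMod p, C (a c) * X ^ c.val with hA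
  have hcoeff : ∀ d : ZMod p, A.coeff d.val = a d := by
    intro d
    rw [hA, Polynomial.finsetSum_coeff]
    rw [Finset.sum_eq_single d]
    · simp
    · intro b _ hb
      rw [Polynomial.coeff_C_mul_X_pow]
      rw [if_neg]
      intro hval
      exact hb (ZMod.val_injective p hval.symm)
    · intro h; exact absurd (Finset.mem_univ _) h
  have hdeg : A.natDegree ≤ p - 1 := by
    rw [hA]
    refine Polynomial.natDegree_sum_le_of_forall_le _ _ fun c _ => ?_
    refine (Polynomial.natDegree_C_mul_X_pow_le _ _).trans ?_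
    have := ZMod.val_lt c
    omega
  have heval : Polynomial.aeval ζ A = 0 := by
    rw [hA, map_sum]
    rw [← h]
    refine Finset.sum_congr rfl fun c _ => ?_
    rw [map_mul, map_pow, Polynomial.aeval_X, Polynomial.aeval_C, stdAddChar_eq_pow c]
    rfl
  have hdvd : cyclotomic p ℚ ∣ A := by
    rw [Polynomial.cyclotomic_eq_minpoly_rat hprim hp.pos]
    exact minpoly.dvd ℚ ζ heval
  obtain ⟨B, hB⟩ := hdvd
  have hcyc_deg : (cyclotomic p ℚ).natDegree = p - 1 := by
    rw [Polynomial.natDegree_cyclotomic, Nat.totient_prime hp]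
  have hcyc_coeff : ∀ i, i < p → (cyclotomic p ℚ).coeff i = 1 := by
    intro i hi
    rw [Polynomial.cyclotomic_prime, Polynomial.finsetSum_coeff]
    rw [Finset.sum_eq_single i]
    · simp
    · intro b _ hb
      rw [Polynomial.coeff_X_pow, if_neg (Ne.symm hb)]
    · intro h; exact absurd (Finset.mem_range.mpr hi) h
  by_cases hB0 : B = 0
  · have hA0 : A = 0 := by rw [hB, hB0, mul_zero]
    have h1 := hcoeff c
    have h2 := hcoeff 0
    rw [hA0, Polynomial.coeff_zero] at h1 h2
    rw [← h1, ← h2]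
  · have hcyc_ne : cyclotomic p ℚ ≠ 0 := Polynomial.cyclotomic_ne_zero p ℚ
    have hBdeg : B.natDegree = 0 := by
      have := Polynomial.natDegree_mul hcyc_ne hB0
      rw [← hB, hcyc_deg] at this
      omega
    obtain ⟨m, hm⟩ : ∃ m : ℚ, B = C m := ⟨B.coeff 0, Polynomial.eq_C_of_natDegree_eq_zero hBdeg⟩
    have hAm : ∀ i, i < p → A.coeff i = m := by
      intro i hi
      rw [hB, hm, mul_comm, Polynomial.coeff_C_mul, hcyc_coeff i hi, mul_one]
    rw [← hcoeff c, ← hcoeff 0, hAm _ (ZMod.val_lt c), hAm _ (ZMod.val_lt 0)]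

lemma sum_stdAddChar_mul (u : ZMod p) (hu : u ≠ 0) :
    ∑ c : ZMod p, (ZMod.stdAddChar (u * c) : ℂ) = 0 := by
  have h1 : ∑ c : ZMod p, (ZMod.stdAddChar (u * c) : ℂ) = ∑ c : ZMod p, ZMod.stdAddChar c :=
    Equiv.sum_comp (Equiv.mulLeft₀ u hu) (fun c => (ZMod.stdAddChar c : ℂ))
  rw [h1]
  apply AddChar.sum_eq_zero_of_ne_one
  intro H
  have h2 : ZMod.stdAddChar (1 : ZMod p) = ZMod.stdAddChar (0 : ZMod p) := by
    rw [H]; simp
  have h3 := ZMod.injective_stdAddChar h2
  exact one_ne_zero h3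

/-- If a function `q : D → ZMod p` on a finite type has `∑_k e(q k) = -p`, then
`∑_k e(u q k) = -p` for every `u ≠ 0`. -/
theorem sum_stdAddChar_mul_eq_of_one {D : Type*} [Fintype D] (q : D → ZMod p)
    (h1 : ∑ k, (ZMod.stdAddChar (q k) : ℂ) = -(p : ℂ)) (u : ZMod p) (hu : u ≠ 0) :
    ∑ k, (ZMod.stdAddChar (u * q k) : ℂ) = -(p : ℂ) := by
  classical
  -- fibre counts
  set N : ZMod p → ℚ := fun c => ((Finset.univ.filter fun k => q k = c).card : ℚ) with hN
  have hfib : ∀ f : ZMod p → ℂ, ∑ k, f (q k) = ∑ c, (N c : ℂ) * f c := by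
    intro f
    rw [← Finset.sum_fiberwise (Finset.univ) q (fun k => f (q k))]
    refine Finset.sum_congr rfl fun c _ => ?_
    rw [Finset.sum_congr rfl (fun k hk => by rw [(Finset.mem_filter.mp hk).2] :
      ∀ k ∈ Finset.univ.filter (fun k => q k = c), f (q k) = f c)]
    rw [Finset.sum_const, nsmul_eq_mul, hN]
    push_cast
    rfl
  set a : ZMod p → ℚ := fun c => N c + (if c = 0 then (p : ℚ) else 0) with ha
  have hsum : ∑ c : ZMod p, (a c : ℂ) * ZMod.stdAddChar c = 0 := by
    have e1 : ∀ c : ZMod p, (a c : ℂ) * ZMod.stdAddChar c =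
        (N c : ℂ) * ZMod.stdAddChar c + (if c = 0 then (p : ℂ) else 0) := by
      intro c
      rw [ha]
      by_cases hc : c = 0
      · subst hc; simp
      · simp [hc]
    simp_rw [e1]
    rw [Finset.sum_add_distrib, ← hfib (fun c => (ZMod.stdAddChar c : ℂ)), h1]
    simp
  have hconst := const_of_sum_stdAddChar_eq_zero a hsum
  have e2 : ∑ k, (ZMod.stdAddChar (u * q k) : ℂ) =
      ∑ c : ZMod p, (N c : ℂ) * ZMod.stdAddChar (u * c) :=
    hfib (fun c => (ZMod.stdAddChar (u * c) : ℂ))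
  have e3 : ∀ c : ZMod p, (N c : ℂ) * ZMod.stdAddChar (u * c) =
      (a 0 : ℂ) * ZMod.stdAddChar (u * c) - (if c = 0 then (p : ℂ) else 0) := by
    intro c
    rw [← hconst c, ha]
    by_cases hc : c = 0
    · subst hc; simp
    · simp [hc]
  rw [e2]
  simp_rw [e3]
  rw [Finset.sum_sub_distrib, ← Finset.mul_sum, sum_stdAddChar_mul u hu]
  simp

end

end Fermat.Agent.S16.H722
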