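import Mathlib

set_option autoImplicit false

namespace Fermat.Agent.S16.H722

open Finset

noncomputable section

/-- Abstract finite quadratic module of exponent `p` (values in `ZMod p`), with a sign `s = ±1`
used in the `S`-transformation. -/
structure QuadData (p : ℕ) (D : Type*) [AddCommGroup D] where
  q : D → ZMod p
  b : D → D → ZMod p
  s : ZMod p
  s_mul_s : s * s = 1
  q_add : ∀ h k, q (h + k) = q h + q k + b h k
  q_smul : ∀ (n : ℤ) (h : D), q (n • h) = (n : ZMod p) ^ 2 * q h
  b_add_left : ∀ h h' k, b (h + h') k = b h k + b h' k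
  b_nondeg : ∀ h, h ≠ 0 → ∃ k, b h k ≠ 0

namespace QuadData

variable {p : ℕ} [Fact p.Prime] {D : Type*} [AddCommGroup D] (W : QuadData p D)

/-- the standard character `x ↦ exp (2 π i x / p)` -/
abbrev e (p : ℕ) [NeZero p] : AddChar (ZMod p) ℂ := ZMod.stdAddChar

lemma b_comm (h k : D) : W.b h k = W.b k h := by
  have h1 := W.q_add h k
  have h2 := W.q_add k h
  rw [add_comm k h] at h2
  have : W.q h + W.q k + W.b h k = W.q k + W.q h + W.b k h := by rw [← h1, ← h2]
  linear_combination this

lemma b_add_right (h k k' : D) : W.b h (k + k') = W.b h k + W.b h k' := by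
  rw [W.b_comm, W.b_add_left, W.b_comm k, W.b_comm k']

lemma q_zero : W.q 0 = 0 := by
  have := W.q_smul 0 0
  simpa using this

lemma b_zero_left (k : D) : W.b 0 k = 0 := by
  have := W.b_add_left 0 0 k
  simp only [add_zero] at this
  linear_combination -this

lemma b_zero_right (h : D) : W.b h 0 = 0 := by rw [W.b_comm, W.b_zero_left]

lemma q_neg (h : D) : W.q (-h) = W.q h := by
  have := W.q_smul (-1) h
  simpa using this

lemma b_neg_left (h k : D) : W.b (-h) k = - W.b h k := by
  have := W.b_add_left h (-h) k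
  rw [add_neg_cancel, W.b_zero_left] at this
  linear_combination -this

lemma b_neg_right (h k : D) : W.b h (-k) = - W.b h k := by
  rw [W.b_comm, W.b_neg_left, W.b_comm]

lemma b_zsmul_left (n : ℤ) (h k : D) : W.b (n • h) k = n * W.b h k := by
  induction n using Int.induction_on with
  | zero => simp [W.b_zero_left]
  | succ n ih =>
    rw [add_smul, one_smul, W.b_add_left, ih]; push_cast; ring
  | pred n ih =>
    rw [sub_smul, one_smul, sub_eq_add_neg, W.b_add_left, ih, W.b_neg_left]; push_cast; ring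

lemma b_zsmul_right (n : ℤ) (h k : D) : W.b h (n • k) = n * W.b h k := by
  rw [W.b_comm, W.b_zsmul_left, W.b_comm]

/-- the additive character `k ↦ e (c * b h k)` of `D` -/
def chi (c : ZMod p) (h : D) : AddChar D ℂ where
  toFun k := e p (c * W.b h k)
  map_zero_eq_one' := by simp [W.b_zero_right]
  map_add_eq_mul' k k' := by
    rw [W.b_add_right, mul_add, AddChar.map_add_eq_mul]

@[simp] lemma chi_apply (c : ZMod p) (h k : D) : W.chi c h k = e p (c * W.b h k) := rfl

lemma chi_ne_one (c : ZMod p) (hc : c ≠ 0) (h : D) (hh : h ≠ 0) : W.chi c h ≠ 1 := by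
  obtain ⟨k, hk⟩ := W.b_nondeg h hh
  intro H
  have h1 : W.chi c h k = 1 := by rw [H]; rfl
  rw [chi_apply] at h1
  have h2 : e p (c * W.b h k) = e p 0 := by rw [h1]; simp
  have h3 := ZMod.injective_stdAddChar h2
  exact (mul_ne_zero hc hk) h3

variable [Fintype D]

lemma sum_chi (c : ZMod p) (hc : c ≠ 0) (h : D) [DecidableEq D] :
    ∑ k, e p (c * W.b h k) = if h = 0 then (Fintype.card D : ℂ) else 0 := by
  split_ifs with hh
  · subst hh
    simp [W.b_zero_left]
  · exact AddChar.sum_eq_zero_of_ne_one (W.chi_ne_one c hc h hh)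

omit [Fintype D] in
lemma s_ne_zero : W.s ≠ 0 := by
  intro h
  have := W.s_mul_s
  rw [h] at this
  simp at this

/-- the Gauss sum -/
def gauss (u : ZMod p) : ℂ := ∑ k, e p (u * W.q k)

/-- completing the square -/
lemma sum_complete_square (u : ZMod p) (hu : u ≠ 0) (j : D) :
    ∑ k, e p (u * W.q k + W.s * W.b k j) = e p (-(u⁻¹ * W.q j)) * W.gauss u := by
  -- shift `k ↦ k - n • j` with `n = s u⁻¹`
  obtain ⟨n, hn⟩ : ∃ n : ℤ, (n : ZMod p) = W.s * u⁻¹ := ⟨(W.s * u⁻¹).val, by simp⟩
  have hshift : ∀ k, u * W.q (k + n • j) = u * W.q k + W.s * W.b k j + u⁻¹ * W.q j := by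
    intro k
    rw [W.q_add, W.q_smul, W.b_zsmul_right, hn]
    have h1 : u * u⁻¹ = 1 := mul_inv_cancel₀ hu
    have h2 := W.s_mul_s
    linear_combination (W.s * W.b k j + u⁻¹ * W.q j * W.s ^ 2 * u⁻¹ * 0) * h1
      + (u⁻¹ * W.q j) * h2 * (u * u⁻¹) + (u⁻¹ * W.q j) * h1
  unfold gauss
  rw [Finset.mul_sum]
  rw [← Equiv.sum_comp (Equiv.addRight (n • j)) (fun k => e p (-(u⁻¹ * W.q j)) * e p (u * W.q k))]
  refine Finset.sum_congr rfl fun k _ => ?_
  simp only [Equiv.coe_addRight]
  rw [hshift, ← AddChar.map_add_eq_mul]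
  congr 1
  ring

end QuadData

end

end Fermat.Agent.S16.H722
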