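import Mathlib
import Fermat.Agent.S16.H722.QuadData
import Fermat.Agent.S16.H722.Cyclo

set_option autoImplicit false

/-!
# S16 / LB : abstract Weil-representation step (pieces L-gs + L-ind), helper722

Input (`WeilSystem p D`): a finite abelian group `D` of order `p ^ 2`, a quadratic function
`q : D → ZMod p` with nondegenerate polar form `b`, a sign `s` (`s * s = 1`), and functions
`Θ h : ℍ → ℂ` (`h : D`) with

* `(T)`  `Θ h ∣[2] T = e(q h) • Θ h`,
* `(S)`  `Θ h ∣[2] S = -(1/p) • ∑ k, e(s * b h k) • Θ k`,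
* `Θ 0 ≠ 0`,

where `e = ZMod.stdAddChar` (`e x = exp (2 π i x / p)`).

Output:

* `WeilSystem.gauss_eq`   : `∑ k, e(u * q k) = -p` for all `u ≠ 0` (from `(S T) ^ 3 = -1` and the
  linear independence of `ζ, …, ζ ^ (p-1)` over `ℚ`);
* `WeilSystem.slash_eq_lin` : `Θ 0 ∣[2] γ = ∑ k, cv γ k • Θ k` for ALL `γ ∈ SL(2, ℤ)`, with
  `cv γ = δ₀` if `p ∣ c` and `cv γ k = -(1/p) e((d/c) q k)` otherwise (`γ = (a, b; c, d)`);
* `WeilSystem.slash_Gamma0` : `Θ 0 ∣[2] γ = Θ 0` for `γ ∈ Γ₀(p)`;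
* `WeilSystem.modularForm` : if all `Θ h` are holomorphic and bounded at `i∞`, then
  `Θ 0` is (the function of) a `ModularForm (Gamma0 p) 2`  (`coe_modularForm`).

For the theta functions `Θ_h(τ) = ∑_{x ∈ ℤ⁴} exp(π i τ (x+h)ᵀ A (x+h))`, `h ∈ A⁻¹ℤ⁴ / ℤ⁴`,
one has `q h = p hᵀAh / 2`, `b h k = p hᵀAk` and `s = -1` (or `s = 1`).
-/

namespace Fermat.Agent.S16.H722

open Finset UpperHalfPlane ModularForm MatrixGroups CongruenceSubgroup Matrix.SpecialLinearGroup
open scoped ModularForm Manifold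

noncomputable section

open QuadData

/-- A family of functions `Θ h` transforming by the Weil representation of a finite quadratic
module of order `p ^ 2` (weight `2`). -/
structure WeilSystem (p : ℕ) [Fact p.Prime] (D : Type*) [AddCommGroup D] [Fintype D]
    extends QuadData p D where
  card_eq : Fintype.card D = p ^ 2
  Θ : D → ℍ → ℂ
  slash_T : ∀ h, Θ h ∣[(2 : ℤ)] ModularGroup.T = e p (q h) • Θ h
  slash_S : ∀ h, Θ h ∣[(2 : ℤ)] ModularGroup.S =
    (-(p : ℂ)⁻¹) • ∑ k, e p (s * b h k) • Θ k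
  ne_zero : Θ 0 ≠ 0

namespace WeilSystem

variable {p : ℕ} [Fact p.Prime] {D : Type*} [AddCommGroup D] [Fintype D] (W : WeilSystem p D)

/-- linear combination of the `Θ k` -/
def lin (c : D → ℂ) : ℍ → ℂ := ∑ k, c k • W.Θ k

/-- action of `T` on coefficient vectors -/
def opT (c : D → ℂ) : D → ℂ := fun k => c k * e p (W.q k)

/-- action of `T⁻¹` on coefficient vectors -/
def opT' (c : D → ℂ) : D → ℂ := fun k => c k * e p (-W.q k)

/-- action of `S` on coefficient vectors -/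
def opS (c : D → ℂ) : D → ℂ := fun j => -(p : ℂ)⁻¹ * ∑ k, c k * e p (W.s * W.b k j)

lemma lin_slash_T (c : D → ℂ) : W.lin c ∣[(2 : ℤ)] ModularGroup.T = W.lin (W.opT c) := by
  unfold lin opT
  rw [SlashAction.sum_slash]
  refine Finset.sum_congr rfl fun k _ => ?_
  rw [SL_smul_slash, W.slash_T, smul_smul]

lemma slash_T_inv (h : D) : W.Θ h ∣[(2 : ℤ)] ModularGroup.T⁻¹ = e p (-W.q h) • W.Θ h := by
  have h1 : (W.Θ h ∣[(2 : ℤ)] ModularGroup.T) ∣[(2 : ℤ)] ModularGroup.T⁻¹ = W.Θ h := by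
    rw [← SlashAction.slash_mul, mul_inv_cancel, SlashAction.slash_one]
  rw [W.slash_T, SL_smul_slash] at h1
  have h2 : e p (-W.q h) * e p (W.q h) = 1 := by
    rw [← AddChar.map_add_eq_mul]; simp
  calc W.Θ h ∣[(2 : ℤ)] ModularGroup.T⁻¹
      = (e p (-W.q h) * e p (W.q h)) • W.Θ h ∣[(2 : ℤ)] ModularGroup.T⁻¹ := by rw [h2, one_smul]
    _ = e p (-W.q h) • (e p (W.q h) • W.Θ h ∣[(2 : ℤ)] ModularGroup.T⁻¹) := by rw [smul_smul]
    _ = e p (-W.q h) • W.Θ h := by rw [h1]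

lemma lin_slash_T_inv (c : D → ℂ) :
    W.lin c ∣[(2 : ℤ)] ModularGroup.T⁻¹ = W.lin (W.opT' c) := by
  unfold lin opT'
  rw [SlashAction.sum_slash]
  refine Finset.sum_congr rfl fun k _ => ?_
  rw [SL_smul_slash, W.slash_T_inv, smul_smul]

lemma lin_slash_S (c : D → ℂ) : W.lin c ∣[(2 : ℤ)] ModularGroup.S = W.lin (W.opS c) := by
  unfold lin opS
  rw [SlashAction.sum_slash]
  simp_rw [SL_smul_slash, W.slash_S, Finset.smul_sum, smul_smul]
  rw [Finset.sum_comm]
  refine Finset.sum_congr rfl fun j _ => ?_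
  rw [← Finset.sum_smul]
  congr 1
  rw [Finset.mul_sum]
  refine Finset.sum_congr rfl fun k _ => ?_
  ring

lemma slash_neg_one (f : ℍ → ℂ) : f ∣[(2 : ℤ)] (-1 : SL(2, ℤ)) = f := by
  ext τ
  rw [SL_slash_apply]
  have h1 : (-1 : SL(2, ℤ)) • τ = τ := by
    rw [ModularGroup.SL_neg_smul, one_smul]
  have h2 : denom ((-1 : SL(2, ℤ)) : GL (Fin 2) ℝ) τ = -1 := by
    simp [denom]
  rw [h1, h2]
  norm_num


/-! ### coefficient vectors -/

open scoped Classical in
/-- the delta function at `0` -/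
def delta0 : D → ℂ := fun k => if k = 0 then 1 else 0

omit [Fact p.Prime] [Fintype D] in
lemma delta0_zero : (delta0 : D → ℂ) 0 = 1 := by simp [delta0]

omit [Fact p.Prime] [Fintype D] in
lemma delta0_ne {k : D} (hk : k ≠ 0) : (delta0 : D → ℂ) k = 0 := by simp [delta0, hk]

lemma lin_delta0 : W.lin delta0 = W.Θ 0 := by
  classical
  unfold lin delta0
  rw [Finset.sum_eq_single 0]
  · simp
  · intro k _ hk; simp [hk]
  · intro h; exact absurd (Finset.mem_univ _) h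

lemma lin_smul (a : ℂ) (c : D → ℂ) : W.lin (fun k => a * c k) = a • W.lin c := by
  unfold lin
  rw [Finset.smul_sum]
  refine Finset.sum_congr rfl fun k _ => ?_
  rw [smul_smul]

lemma p_ne_zero (_W : WeilSystem p D) : (p : ℂ) ≠ 0 := by
  exact_mod_cast (Fact.out : p.Prime).ne_zero

lemma sum_e_b (j : D) : ∑ k, e p (W.s * W.b k j) = (p : ℂ) ^ 2 * delta0 j := by
  classical
  have h := W.toQuadData.sum_chi W.s W.toQuadData.s_ne_zero j
  have h' : ∑ k, e p (W.s * W.b k j) = ∑ k, e p (W.s * W.b j k) :=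
    Finset.sum_congr rfl fun k _ => by rw [W.toQuadData.b_comm]
  rw [h', h, W.card_eq]
  unfold delta0
  split_ifs <;> simp

lemma opS_delta0 : W.opS delta0 = fun _ => -(p : ℂ)⁻¹ := by
  classical
  funext j
  unfold opS
  rw [Finset.sum_eq_single 0]
  · simp [delta0_zero, W.toQuadData.b_zero_left]
  · intro k _ hk; simp [delta0_ne hk]
  · intro h; exact absurd (Finset.mem_univ _) h

lemma opS_const (a : ℂ) : W.opS (fun _ => a) = fun j => -(a * p) * delta0 j := by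
  funext j
  unfold opS
  rw [← Finset.mul_sum, W.sum_e_b]
  have := W.p_ne_zero
  field_simp

lemma opS_quad (a : ℂ) (u : ZMod p) (hu : u ≠ 0) :
    W.opS (fun k => a * e p (u * W.q k)) =
      fun j => -(p : ℂ)⁻¹ * a * W.gauss u * e p (-(u⁻¹ * W.q j)) := by
  funext j
  unfold opS
  have h1 : ∀ k, a * e p (u * W.q k) * e p (W.s * W.b k j) =
      a * e p (u * W.q k + W.s * W.b k j) := by
    intro k
    rw [AddChar.map_add_eq_mul, mul_assoc]
  simp_rw [h1]
  rw [← Finset.mul_sum, W.toQuadData.sum_complete_square u hu j]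
  ring

lemma opT_const (a : ℂ) : W.opT (fun _ => a) = fun k => a * e p (1 * W.q k) := by
  funext k
  simp [opT]

lemma opT_delta0 (a : ℂ) : W.opT (fun k => a * delta0 k) = fun k => a * delta0 k := by
  classical
  funext k
  unfold opT
  by_cases hk : k = 0
  · subst hk; simp [W.toQuadData.q_zero]
  · simp [delta0_ne hk]

lemma opT'_delta0 (a : ℂ) : W.opT' (fun k => a * delta0 k) = fun k => a * delta0 k := by
  classical
  funext k
  unfold opT'
  by_cases hk : k = 0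
  · subst hk; simp [W.toQuadData.q_zero]
  · simp [delta0_ne hk]

lemma opT_quad (a : ℂ) (u : ZMod p) :
    W.opT (fun k => a * e p (u * W.q k)) = fun k => a * e p ((u + 1) * W.q k) := by
  funext k
  unfold opT
  rw [mul_assoc, ← AddChar.map_add_eq_mul]
  congr 2
  ring

lemma opT'_quad (a : ℂ) (u : ZMod p) :
    W.opT' (fun k => a * e p (u * W.q k)) = fun k => a * e p ((u - 1) * W.q k) := by
  funext k
  unfold opT'
  rw [mul_assoc, ← AddChar.map_add_eq_mul]
  congr 2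
  ring

/-- the Gauss sum of the quadratic module is `-p` (Milgram's formula in our situation), obtained
from `(S T) ^ 3 = -1`. -/
theorem gauss_one : W.gauss 1 = -(p : ℂ) := by
  have hp := W.p_ne_zero
  have hrel : (ModularGroup.S * ModularGroup.T) ^ 3 = (-1 : SL(2, ℤ)) := by decide
  have h0 : W.Θ 0 ∣[(2 : ℤ)] ((ModularGroup.S * ModularGroup.T) ^ 3) = W.Θ 0 := by
    rw [hrel, slash_neg_one]
  have h1 : W.Θ 0 ∣[(2 : ℤ)] ((ModularGroup.S * ModularGroup.T) ^ 3) =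
      W.lin (W.opT (W.opS (W.opT (W.opS (W.opT (W.opS delta0)))))) := by
    rw [pow_succ, pow_succ, pow_one]
    simp only [SlashAction.slash_mul]
    rw [← W.lin_delta0]
    simp only [W.lin_slash_S, W.lin_slash_T]
  have h2 : W.opT (W.opS (W.opT (W.opS (W.opT (W.opS delta0))))) =
      fun k => (-(p : ℂ)⁻¹ * W.gauss 1) * delta0 k := by
    rw [W.opS_delta0, W.opT_const, W.opS_quad _ 1 one_ne_zero]
    have e1 : W.opT (fun j => -(p : ℂ)⁻¹ * -(p : ℂ)⁻¹ * W.gauss 1 * e p (-((1 : ZMod p)⁻¹ * W.q j)))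
        = fun _ => (p : ℂ)⁻¹ * (p : ℂ)⁻¹ * W.gauss 1 := by
      funext k
      unfold opT
      rw [mul_assoc, ← AddChar.map_add_eq_mul]
      have : -((1 : ZMod p)⁻¹ * W.q k) + W.q k = 0 := by simp
      rw [this]
      simp
    rw [e1, W.opS_const]
    have e2 : (fun j : D => -((p : ℂ)⁻¹ * (p : ℂ)⁻¹ * W.gauss 1 * (p : ℂ)) * (delta0 j : ℂ)) =
        fun k : D => (-(p : ℂ)⁻¹ * W.gauss 1) * delta0 k := by
      funext j
      field_simp
    rw [e2, W.opT_delta0]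
  rw [h2, W.lin_smul, W.lin_delta0] at h1
  rw [h1] at h0
  -- `Θ 0 ≠ 0`
  obtain ⟨τ, hτ⟩ : ∃ τ, W.Θ 0 τ ≠ 0 := by
    by_contra hcon
    rw [not_exists] at hcon
    exact W.ne_zero (funext fun τ => not_not.mp (hcon τ))
  have h3 := congrFun h0 τ
  simp only [Pi.smul_apply, smul_eq_mul] at h3
  have h4 : -(p : ℂ)⁻¹ * W.gauss 1 = 1 := by
    have : (-(p : ℂ)⁻¹ * W.gauss 1 - 1) * W.Θ 0 τ = 0 := by linear_combination h3
    rcases mul_eq_zero.mp this with h | h
    · linear_combination h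
    · exact absurd h hτ
  field_simp at h4
  linear_combination -h4


/-- all Gauss sums `∑ e(u q(k))`, `u ≠ 0`, are equal to `-p`. -/
theorem gauss_eq (u : ZMod p) (hu : u ≠ 0) : W.gauss u = -(p : ℂ) := by
  have h1 := W.gauss_one
  unfold QuadData.gauss at h1 ⊢
  simp only [one_mul] at h1
  exact sum_stdAddChar_mul_eq_of_one W.q h1 u hu

/-! ### the induction over words in `S`, `T` -/

open scoped Classical in
/-- coefficient vector of `Θ 0 ∣[2] γ` -/
def cv (γ : SL(2, ℤ)) : D → ℂ :=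
  if ((γ 1 0 : ℤ) : ZMod p) = 0 then delta0
  else fun k => -(p : ℂ)⁻¹ * e p ((((γ 1 1 : ℤ) : ZMod p) / ((γ 1 0 : ℤ) : ZMod p)) * W.q k)

lemma cv_of_eq_zero {γ : SL(2, ℤ)} (h : ((γ 1 0 : ℤ) : ZMod p) = 0) : W.cv γ = delta0 := by
  unfold cv; rw [if_pos h]

lemma cv_of_ne_zero {γ : SL(2, ℤ)} (h : ((γ 1 0 : ℤ) : ZMod p) ≠ 0) :
    W.cv γ = fun k => -(p : ℂ)⁻¹ *
      e p ((((γ 1 1 : ℤ) : ZMod p) / ((γ 1 0 : ℤ) : ZMod p)) * W.q k) := by
  unfold cv; rw [if_neg h]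

lemma not_both_zero (_W : WeilSystem p D) (γ : SL(2, ℤ)) (h0 : ((γ 1 0 : ℤ) : ZMod p) = 0)
    (h1 : ((γ 1 1 : ℤ) : ZMod p) = 0) : False := by
  have hdet : γ 0 0 * γ 1 1 - γ 0 1 * γ 1 0 = 1 := by
    have := γ.det_coe
    rw [Matrix.det_fin_two] at this
    exact this
  have h2 : ((γ 0 0 * γ 1 1 - γ 0 1 * γ 1 0 : ℤ) : ZMod p) = 1 := by rw [hdet]; simp
  push_cast at h2
  rw [h0, h1] at h2
  simp at h2

lemma cv_one : W.cv 1 = delta0 := by
  apply W.cv_of_eq_zero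
  simp

lemma cv_neg (γ : SL(2, ℤ)) : W.cv (-γ) = W.cv γ := by
  have e10 : (-γ) 1 0 = - γ 1 0 := by simp
  have e11 : (-γ) 1 1 = - γ 1 1 := by simp
  by_cases h : ((γ 1 0 : ℤ) : ZMod p) = 0
  · rw [W.cv_of_eq_zero h, W.cv_of_eq_zero]
    rw [e10]; push_cast; rw [h, neg_zero]
  · rw [W.cv_of_ne_zero h, W.cv_of_ne_zero]
    · rw [e10, e11]; push_cast
      rw [neg_div_neg_eq]
    · rw [e10]; push_cast; exact neg_ne_zero.mpr h

lemma cv_mul_T (γ : SL(2, ℤ)) : W.cv (γ * ModularGroup.T) = W.opT (W.cv γ) := by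
  have e10 : (γ * ModularGroup.T) 1 0 = γ 1 0 := by
    simp [Matrix.SpecialLinearGroup.coe_mul, ModularGroup.coe_T, Matrix.mul_apply,
      Fin.sum_univ_two]
  have e11 : (γ * ModularGroup.T) 1 1 = γ 1 0 + γ 1 1 := by
    simp [Matrix.SpecialLinearGroup.coe_mul, ModularGroup.coe_T, Matrix.mul_apply,
      Fin.sum_univ_two]
  by_cases h : ((γ 1 0 : ℤ) : ZMod p) = 0
  · rw [W.cv_of_eq_zero h, W.cv_of_eq_zero (by rw [e10]; exact h)]
    have := W.opT_delta0 1
    simpa using this.symm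
  · rw [W.cv_of_ne_zero h, W.cv_of_ne_zero (by rw [e10]; exact h), W.opT_quad]
    funext k
    rw [e10, e11]
    push_cast
    rw [div_add_one h, add_comm]

lemma cv_mul_T_inv (γ : SL(2, ℤ)) : W.cv (γ * ModularGroup.T⁻¹) = W.opT' (W.cv γ) := by
  have e10 : (γ * ModularGroup.T⁻¹) 1 0 = γ 1 0 := by
    simp [Matrix.SpecialLinearGroup.coe_mul, Matrix.mul_apply, Fin.sum_univ_two]
  have e11 : (γ * ModularGroup.T⁻¹) 1 1 = γ 1 1 - γ 1 0 := by
    simp [Matrix.SpecialLinearGroup.coe_mul, Matrix.mul_apply, Fin.sum_univ_two]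
    ring
  by_cases h : ((γ 1 0 : ℤ) : ZMod p) = 0
  · rw [W.cv_of_eq_zero h, W.cv_of_eq_zero (by rw [e10]; exact h)]
    have := W.opT'_delta0 1
    simpa using this.symm
  · rw [W.cv_of_ne_zero h, W.cv_of_ne_zero (by rw [e10]; exact h), W.opT'_quad]
    funext k
    rw [e10, e11]
    push_cast
    rw [div_sub_one h]

lemma cv_mul_S (γ : SL(2, ℤ)) : W.cv (γ * ModularGroup.S) = W.opS (W.cv γ) := by
  have hp := W.p_ne_zero
  have e10 : (γ * ModularGroup.S) 1 0 = γ 1 1 := by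
    simp [Matrix.SpecialLinearGroup.coe_mul, ModularGroup.coe_S, Matrix.mul_apply,
      Fin.sum_univ_two]
  have e11 : (γ * ModularGroup.S) 1 1 = - γ 1 0 := by
    simp [Matrix.SpecialLinearGroup.coe_mul, ModularGroup.coe_S, Matrix.mul_apply,
      Fin.sum_univ_two]
  by_cases h : ((γ 1 0 : ℤ) : ZMod p) = 0
  · -- `γ ∈ Γ₀(p)`
    have h1 : ((γ 1 1 : ℤ) : ZMod p) ≠ 0 := fun h1 => W.not_both_zero γ h h1
    rw [W.cv_of_eq_zero h, W.cv_of_ne_zero (by rw [e10]; exact h1), W.opS_delta0]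
    funext k
    rw [e10, e11]
    push_cast
    rw [h]
    simp
  · by_cases h1 : ((γ 1 1 : ℤ) : ZMod p) = 0
    · rw [W.cv_of_ne_zero h, W.cv_of_eq_zero (by rw [e10]; exact h1)]
      have e2 : (fun k => -(p : ℂ)⁻¹ *
          e p ((((γ 1 1 : ℤ) : ZMod p) / ((γ 1 0 : ℤ) : ZMod p)) * W.q k)) =
          fun _ : D => -(p : ℂ)⁻¹ := by
        funext k
        rw [h1]
        simp
      rw [e2, W.opS_const]
      funext j
      field_simp
    · rw [W.cv_of_ne_zero h, W.cv_of_ne_zero (by rw [e10]; exact h1)]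
      have hu : (((γ 1 1 : ℤ) : ZMod p) / ((γ 1 0 : ℤ) : ZMod p)) ≠ 0 := div_ne_zero h1 h
      rw [W.opS_quad _ _ hu, W.gauss_eq _ hu]
      funext j
      rw [e10, e11]
      push_cast
      have e3 : -((γ 1 0 : ℤ) : ZMod p) / ((γ 1 1 : ℤ) : ZMod p) * W.q j =
          -((((γ 1 1 : ℤ) : ZMod p) / ((γ 1 0 : ℤ) : ZMod p))⁻¹ * W.q j) := by
        field_simp
      rw [e3]
      field_simp

/-- **Transformation formula**: `Θ 0 ∣[2] γ` for every `γ ∈ SL(2, ℤ)`. -/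
theorem slash_eq_lin (γ : SL(2, ℤ)) : W.Θ 0 ∣[(2 : ℤ)] γ = W.lin (W.cv γ) := by
  have hγ : γ ∈ Subgroup.closure ({ModularGroup.S, ModularGroup.T} : Set SL(2, ℤ)) := by
    rw [SpecialLinearGroup.SL2Z_generators]; trivial
  induction hγ using Subgroup.closure_induction_right with
  | one => rw [SlashAction.slash_one, W.cv_one, W.lin_delta0]
  | mul_right x hx y hy ih =>
    rcases hy with rfl | rfl
    · rw [SlashAction.slash_mul, ih, W.lin_slash_S, W.cv_mul_S]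
    · rw [SlashAction.slash_mul, ih, W.lin_slash_T, W.cv_mul_T]
  | mul_inv_cancel x hx y hy ih =>
    rcases hy with rfl | rfl
    · have hS : ModularGroup.S⁻¹ = -ModularGroup.S := by decide
      have e1 : x * ModularGroup.S⁻¹ = (-x) * ModularGroup.S := by rw [hS]; simp
      have e2 : (-x : SL(2, ℤ)) = x * (-1) := by simp
      rw [e1, W.cv_mul_S, W.cv_neg, e2, SlashAction.slash_mul, SlashAction.slash_mul,
        slash_neg_one, ih, W.lin_slash_S]
    · rw [SlashAction.slash_mul, ih, W.lin_slash_T_inv, W.cv_mul_T_inv]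

/-- `Θ 0` is invariant under `Γ₀(p)` (weight `2`). -/
theorem slash_Gamma0 (γ : SL(2, ℤ)) (hγ : γ ∈ Gamma0 p) : W.Θ 0 ∣[(2 : ℤ)] γ = W.Θ 0 := by
  rw [W.slash_eq_lin, W.cv_of_eq_zero (Gamma0_mem.mp hγ), W.lin_delta0]

/-- `Θ 0 ∣[2] γ` is bounded at `i∞` for all `γ`, if all `Θ h` are. -/
theorem isBoundedAtImInfty_slash (bdd : ∀ h, IsBoundedAtImInfty (W.Θ h)) (γ : SL(2, ℤ)) :
    IsBoundedAtImInfty (W.Θ 0 ∣[(2 : ℤ)] γ) := by
  rw [W.slash_eq_lin]
  unfold lin
  have : ∀ s : Finset D, IsBoundedAtImInfty (∑ k ∈ s, W.cv γ k • W.Θ k) := by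
    classical
    intro s
    induction s using Finset.induction_on with
    | empty =>
      simp only [Finset.sum_empty]
      exact (zero_form_isBoundedAtImInfty)
    | insert a s ha ih =>
      rw [Finset.sum_insert ha]
      exact ((bdd a).const_smul_left _).add ih
  exact this _

/-- **The modular form** `Θ 0 ∈ M₂(Γ₀(p))`. -/
def modularForm (holo : ∀ h, MDiff (W.Θ h)) (bdd : ∀ h, IsBoundedAtImInfty (W.Θ h)) :
    ModularForm (Gamma0 p) 2 where
  toFun := W.Θ 0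
  slash_action_eq' := by
    rintro _ ⟨γ, hγ, rfl⟩
    exact W.slash_Gamma0 γ hγ
  holo' := holo 0
  bdd_at_cusps' := fun {c} hc => by
    have hc' : IsCusp c 𝒮ℒ := by
      refine hc.mono ?_
      rintro _ ⟨γ, -, rfl⟩
      exact ⟨γ, rfl⟩
    rw [OnePoint.isBoundedAt_iff_forall_SL2Z hc']
    intro γ _
    exact W.isBoundedAtImInfty_slash bdd γ

@[simp] lemma coe_modularForm (holo : ∀ h, MDiff (W.Θ h))
    (bdd : ∀ h, IsBoundedAtImInfty (W.Θ h)) : ⇑(W.modularForm holo bdd) = W.Θ 0 := rfl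

end WeilSystem

end

end Fermat.Agent.S16.H722
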