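import Fermat.Agent.S16.H722.LatAlg

set_option autoImplicit false

namespace Fermat.Agent.S16.H722

open Matrix

noncomputable section

namespace Lat

variable {p : ℕ} {A B : Matrix (Fin 4) (Fin 4) ℤ}

/-- the sublattice `A ℤ⁴` -/
def rangeA (A : Matrix (Fin 4) (Fin 4) ℤ) : AddSubgroup (Fin 4 → ℤ) :=
  (LinearMap.range (Matrix.mulVecLin A)).toAddSubgroup

lemma mem_rangeA {y : Fin 4 → ℤ} : y ∈ rangeA A ↔ ∃ x, A *ᵥ x = y := by
  simp [rangeA]

/-- the discriminant group `ℤ⁴ / A ℤ⁴` -/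
abbrev Disc (A : Matrix (Fin 4) (Fin 4) ℤ) : Type := (Fin 4 → ℤ) ⧸ rangeA A

/-- the projection -/
def cls (A : Matrix (Fin 4) (Fin 4) ℤ) (y : Fin 4 → ℤ) : Disc A := QuotientAddGroup.mk y

lemma cls_eq_iff {y r : Fin 4 → ℤ} : cls A y = cls A r ↔ ∃ x, r = y + A *ᵥ x := by
  unfold cls
  rw [QuotientAddGroup.eq, mem_rangeA]
  constructor
  · rintro ⟨x, hx⟩
    exact ⟨x, by rw [hx]; abel⟩
  · rintro ⟨x, rfl⟩
    exact ⟨x, by abel⟩

lemma cls_surjective : Function.Surjective (cls A) := QuotientAddGroup.mk_surjective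

lemma cls_add (x y : Fin 4 → ℤ) : cls A (x + y) = cls A x + cls A y := rfl

lemma cls_zero : cls A 0 = 0 := rfl

lemma cls_zsmul (n : ℤ) (x : Fin 4 → ℤ) : cls A (n • x) = n • cls A x := rfl

lemma card_disc [Fact p.Prime] (hA : IsGoodLattice p A B) : Nat.card (Disc A) = p ^ 2 := by
  have hinj : Function.Injective (Matrix.mulVecLin A) := A_mulVec_injective hA
  let e : (Fin 4 → ℤ) ≃ₗ[ℤ] LinearMap.range (Matrix.mulVecLin A) :=
    LinearEquiv.ofInjective (Matrix.mulVecLin A) hinj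
  have h := Submodule.natAbs_det_equiv (LinearMap.range (Matrix.mulVecLin A)) e
  have h2 : (LinearMap.range (Matrix.mulVecLin A)).subtype ∘ₗ
      AddMonoidHom.toIntLinearMap (e : (Fin 4 → ℤ) →+ LinearMap.range (Matrix.mulVecLin A)) =
      Matrix.mulVecLin A := by
    ext x i
    rfl
  rw [h2] at h
  have h3 : LinearMap.det (Matrix.mulVecLin A) = A.det := by
    rw [← Matrix.toLin'_apply', LinearMap.det_toLin']
  rw [h3, hA.det_eq] at h
  have h4 : Nat.card (Disc A) = Nat.card ((Fin 4 → ℤ) ⧸ LinearMap.range (Matrix.mulVecLin A)) :=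
    rfl
  rw [h4, ← h]
  have : ((p : ℤ) ^ 2).natAbs = p ^ 2 := by
    rw [Int.natAbs_pow, Int.natAbs_natCast]
  exact this

lemma finite_disc [Fact p.Prime] (hA : IsGoodLattice p A B) : Finite (Disc A) := by
  apply Nat.finite_of_card_ne_zero
  rw [card_disc hA]
  exact pow_ne_zero _ (Fact.out : p.Prime).ne_zero

end Lat

end

end Fermat.Agent.S16.H722
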