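import Fermat.Agent.S16.Interface

set_option autoImplicit false

namespace Fermat.Agent.S16.H722

open Matrix

noncomputable section

namespace Lat

variable {p : ℕ} {A B : Matrix (Fin 4) (Fin 4) ℤ}

/-- symmetric bilinear form -/
lemma dot_mulVec_comm {M : Matrix (Fin 4) (Fin 4) ℤ} (hM : M.IsSymm) (x y : Fin 4 → ℤ) :
    x ⬝ᵥ M *ᵥ y = y ⬝ᵥ M *ᵥ x := by
  rw [Matrix.dotProduct_mulVec, ← Matrix.mulVec_transpose, hM.eq, dotProduct_comm]

lemma qf_add {M : Matrix (Fin 4) (Fin 4) ℤ} (hM : M.IsSymm) (x y : Fin 4 → ℤ) :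
    qf M (x + y) = qf M x + 2 * (x ⬝ᵥ M *ᵥ y) + qf M y := by
  unfold qf
  rw [Matrix.mulVec_add, dotProduct_add, add_dotProduct, add_dotProduct,
    dot_mulVec_comm hM y x]
  ring

lemma qf_zsmul (M : Matrix (Fin 4) (Fin 4) ℤ) (n : ℤ) (x : Fin 4 → ℤ) :
    qf M (n • x) = n ^ 2 * qf M x := by
  unfold qf
  rw [Matrix.mulVec_smul, dotProduct_smul, smul_dotProduct]
  simp only [smul_eq_mul]
  ring

lemma qf_even {M : Matrix (Fin 4) (Fin 4) ℤ} (hM : M.IsSymm) (hd : ∀ i, Even (M i i))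
    (x : Fin 4 → ℤ) : Even (qf M x) := by
  have h01 : M 1 0 = M 0 1 := hM.apply 0 1
  have h02 : M 2 0 = M 0 2 := hM.apply 0 2
  have h03 : M 3 0 = M 0 3 := hM.apply 0 3
  have h12 : M 2 1 = M 1 2 := hM.apply 1 2
  have h13 : M 3 1 = M 1 3 := hM.apply 1 3
  have h23 : M 3 2 = M 2 3 := hM.apply 2 3
  obtain ⟨a0, ha0⟩ := hd 0
  obtain ⟨a1, ha1⟩ := hd 1
  obtain ⟨a2, ha2⟩ := hd 2
  obtain ⟨a3, ha3⟩ := hd 3
  refine ⟨a0 * x 0 ^ 2 + a1 * x 1 ^ 2 + a2 * x 2 ^ 2 + a3 * x 3 ^ 2 + M 0 1 * x 0 * x 1 +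
    M 0 2 * x 0 * x 2 + M 0 3 * x 0 * x 3 + M 1 2 * x 1 * x 2 + M 1 3 * x 1 * x 3 +
    M 2 3 * x 2 * x 3, ?_⟩
  unfold qf
  simp only [dotProduct, Matrix.mulVec, Fin.sum_univ_four]
  rw [h01, h02, h03, h12, h13, h23, ha0, ha1, ha2, ha3]
  ring

variable (hA : IsGoodLattice p A B)
include hA

lemma det_ne_zero [Fact p.Prime] : A.det ≠ 0 := by
  rw [hA.det_eq]
  exact pow_ne_zero _ (by exact_mod_cast (Fact.out : p.Prime).ne_zero)

lemma A_mulVec_injective [Fact p.Prime] : Function.Injective (fun x : Fin 4 → ℤ => A *ᵥ x) := by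
  intro x y hxy
  have h : A *ᵥ (x - y) = 0 := by
    rw [Matrix.mulVec_sub]; exact sub_eq_zero.mpr hxy
  have := Matrix.eq_zero_of_mulVec_eq_zero (det_ne_zero hA) h
  exact sub_eq_zero.mp this

lemma A_mul_B_mulVec (y : Fin 4 → ℤ) : A *ᵥ (B *ᵥ y) = (p : ℤ) • y := by
  rw [Matrix.mulVec_mulVec, hA.mul_eq, Matrix.smul_mulVec, Matrix.one_mulVec]

lemma B_mul_A [Fact p.Prime] : B * A = (p : ℤ) • (1 : Matrix (Fin 4) (Fin 4) ℤ) := by
  -- `A (B A - p) = 0`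
  have h : A * (B * A - (p : ℤ) • (1 : Matrix (Fin 4) (Fin 4) ℤ)) = 0 := by
    rw [Matrix.mul_sub, ← Matrix.mul_assoc, hA.mul_eq, Matrix.smul_mul, Matrix.mul_smul,
      Matrix.one_mul, Matrix.mul_one, sub_self]
  have hcol : ∀ j, (fun i => (B * A - (p : ℤ) • (1 : Matrix (Fin 4) (Fin 4) ℤ)) i j) = 0 := by
    intro j
    apply Matrix.eq_zero_of_mulVec_eq_zero (det_ne_zero hA)
    ext i
    have := congrFun (congrFun h i) j
    simpa [Matrix.mul_apply, Matrix.mulVec, dotProduct] using this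
  have : B * A - (p : ℤ) • (1 : Matrix (Fin 4) (Fin 4) ℤ) = 0 := by
    ext i j
    exact congrFun (hcol j) i
  exact sub_eq_zero.mp this

lemma B_mul_A_mulVec [Fact p.Prime] (x : Fin 4 → ℤ) : B *ᵥ (A *ᵥ x) = (p : ℤ) • x := by
  rw [Matrix.mulVec_mulVec, B_mul_A hA, Matrix.smul_mulVec, Matrix.one_mulVec]

lemma B_symm [Fact p.Prime] : B.IsSymm := by
  -- `A (Bᵀ - B) = 0`
  have h1 : A * Bᵀ = (p : ℤ) • (1 : Matrix (Fin 4) (Fin 4) ℤ) := by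
    have := congrArg Matrix.transpose (B_mul_A hA)
    rw [Matrix.transpose_mul, hA.symm.eq] at this
    simpa using this
  have h : A * (Bᵀ - B) = 0 := by
    rw [Matrix.mul_sub, h1, hA.mul_eq, sub_self]
  have hcol : ∀ j, (fun i => (Bᵀ - B) i j) = 0 := by
    intro j
    apply Matrix.eq_zero_of_mulVec_eq_zero (det_ne_zero hA)
    ext i
    have := congrFun (congrFun h i) j
    simpa [Matrix.mul_apply, Matrix.mulVec, dotProduct] using this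
  have : Bᵀ - B = 0 := by
    ext i j
    exact congrFun (hcol j) i
  exact sub_eq_zero.mp this

lemma qfA_even (x : Fin 4 → ℤ) : Even (qf A x) := qf_even hA.symm hA.even x

lemma qfB_even [Fact p.Prime] (y : Fin 4 → ℤ) : Even (qf B y) := qf_even (B_symm hA) hA.even' y

/-- `(y + A x)ᵀ B (y + A x) = yᵀBy + 2 p xᵀy + p xᵀAx`. -/
lemma qfB_add_mulVec [Fact p.Prime] (y x : Fin 4 → ℤ) :
    qf B (y + A *ᵥ x) = qf B y + 2 * p * (x ⬝ᵥ y) + p * qf A x := by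
  rw [qf_add (B_symm hA)]
  have h1 : y ⬝ᵥ B *ᵥ (A *ᵥ x) = p * (x ⬝ᵥ y) := by
    rw [B_mul_A_mulVec hA, dotProduct_smul, smul_eq_mul, dotProduct_comm]
  have h2 : qf B (A *ᵥ x) = p * qf A x := by
    unfold qf
    rw [B_mul_A_mulVec hA, dotProduct_smul, smul_eq_mul, dotProduct_comm]
  rw [h1, h2]
  ring

lemma dot_B_add_mulVec [Fact p.Prime] (w y x : Fin 4 → ℤ) :
    w ⬝ᵥ B *ᵥ (y + A *ᵥ x) = w ⬝ᵥ B *ᵥ y + p * (w ⬝ᵥ x) := by
  rw [Matrix.mulVec_add, dotProduct_add, B_mul_A_mulVec hA, dotProduct_smul, smul_eq_mul]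

end Lat

end

end Fermat.Agent.S16.H722
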