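import Fermat.Agent.S16.H722.Disc
import Fermat.Agent.S16.H722.QuadData

set_option autoImplicit false
set_option linter.unusedSectionVars false

namespace Fermat.Agent.S16.H722

open Matrix

noncomputable section

namespace Lat

variable {p : ℕ} {A B : Matrix (Fin 4) (Fin 4) ℤ}

/-- a representative of a class -/
def rep (d : Disc A) : Fin 4 → ℤ := Quotient.out d

lemma cls_rep (d : Disc A) : cls A (rep d) = d := QuotientAddGroup.out_eq' d

/-- `q` on representatives: `cᵀ B c / 2 mod p` -/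
def qRep (p : ℕ) (B : Matrix (Fin 4) (Fin 4) ℤ) (c : Fin 4 → ℤ) : ZMod p :=
  ((qf B c / 2 : ℤ) : ZMod p)

/-- `b` on representatives: `cᵀ B c' mod p` -/
def bRep (p : ℕ) (B : Matrix (Fin 4) (Fin 4) ℤ) (c c' : Fin 4 → ℤ) : ZMod p :=
  ((c ⬝ᵥ B *ᵥ c' : ℤ) : ZMod p)

section

variable [Fact p.Prime] (hA : IsGoodLattice p A B)
include hA

lemma two_mul_half (c : Fin 4 → ℤ) : 2 * (qf B c / 2) = qf B c := by
  obtain ⟨m, hm⟩ := qfB_even hA c
  omega

lemma two_mul_half_A (x : Fin 4 → ℤ) : 2 * (qf A x / 2) = qf A x := by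
  obtain ⟨m, hm⟩ := qfA_even hA x
  omega

lemma qRep_add_mulVec (c x : Fin 4 → ℤ) : qRep p B (c + A *ᵥ x) = qRep p B c := by
  unfold qRep
  have h1 := qfB_add_mulVec hA c x
  have h2 := two_mul_half hA (c + A *ᵥ x)
  have h3 := two_mul_half hA c
  have h4 := two_mul_half_A hA x
  have h5 : qf B (c + A *ᵥ x) / 2 = qf B c / 2 + p * ((x ⬝ᵥ c) + qf A x / 2) := by
    have : 2 * (qf B (c + A *ᵥ x) / 2) = 2 * (qf B c / 2 + p * ((x ⬝ᵥ c) + qf A x / 2)) := by
      rw [h2, h1]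
      linear_combination (-1 : ℤ) * h3 - (p : ℤ) * h4
    exact mul_left_cancel₀ (two_ne_zero) this
  rw [h5]
  push_cast
  simp

lemma bRep_add_mulVec_right (c c' x : Fin 4 → ℤ) :
    bRep p B c (c' + A *ᵥ x) = bRep p B c c' := by
  unfold bRep
  rw [dot_B_add_mulVec hA]
  push_cast
  simp

lemma bRep_comm (c c' : Fin 4 → ℤ) : bRep p B c c' = bRep p B c' c := by
  unfold bRep
  rw [dot_mulVec_comm (B_symm hA)]

lemma bRep_add_mulVec_left (c c' x : Fin 4 → ℤ) :
    bRep p B (c + A *ᵥ x) c' = bRep p B c c' := by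
  rw [bRep_comm hA, bRep_add_mulVec_right hA, bRep_comm hA]

lemma qRep_congr {c c' : Fin 4 → ℤ} (h : cls A c = cls A c') : qRep p B c = qRep p B c' := by
  obtain ⟨x, rfl⟩ := cls_eq_iff.mp h
  rw [qRep_add_mulVec hA]

lemma bRep_congr {c₁ c₁' c₂ c₂' : Fin 4 → ℤ} (h1 : cls A c₁ = cls A c₁')
    (h2 : cls A c₂ = cls A c₂') : bRep p B c₁ c₂ = bRep p B c₁' c₂' := by
  obtain ⟨x, rfl⟩ := cls_eq_iff.mp h1
  obtain ⟨y, rfl⟩ := cls_eq_iff.mp h2
  rw [bRep_add_mulVec_left hA, bRep_add_mulVec_right hA]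

lemma qRep_add (c c' : Fin 4 → ℤ) :
    qRep p B (c + c') = qRep p B c + qRep p B c' + bRep p B c c' := by
  unfold qRep bRep
  have h1 := qf_add (B_symm hA) c c'
  have h2 := two_mul_half hA (c + c')
  have h3 := two_mul_half hA c
  have h4 := two_mul_half hA c'
  have h5 : qf B (c + c') / 2 = qf B c / 2 + qf B c' / 2 + c ⬝ᵥ B *ᵥ c' := by
    have : 2 * (qf B (c + c') / 2) = 2 * (qf B c / 2 + qf B c' / 2 + c ⬝ᵥ B *ᵥ c') := by
      rw [h2, h1]
      linear_combination (-1 : ℤ) * h3 - h4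
    exact mul_left_cancel₀ (two_ne_zero) this
  rw [h5]
  push_cast
  ring

lemma qRep_zsmul (n : ℤ) (c : Fin 4 → ℤ) : qRep p B (n • c) = (n : ZMod p) ^ 2 * qRep p B c := by
  unfold qRep
  have h1 := qf_zsmul B n c
  have h2 := two_mul_half hA (n • c)
  have h3 := two_mul_half hA c
  have h5 : qf B (n • c) / 2 = n ^ 2 * (qf B c / 2) := by
    have : 2 * (qf B (n • c) / 2) = 2 * (n ^ 2 * (qf B c / 2)) := by
      rw [h2, h1]
      linear_combination (-(n ^ 2 : ℤ)) * h3
    exact mul_left_cancel₀ (two_ne_zero) this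
  rw [h5]
  push_cast
  ring

lemma bRep_add_left (c₁ c₂ c' : Fin 4 → ℤ) :
    bRep p B (c₁ + c₂) c' = bRep p B c₁ c' + bRep p B c₂ c' := by
  unfold bRep
  rw [add_dotProduct]
  push_cast
  ring

lemma cls_eq_zero_of_bRep (c : Fin 4 → ℤ) (h : ∀ c', bRep p B c c' = 0) : cls A c = 0 := by
  -- `B c = p w`
  have hdiv : ∀ i, (p : ℤ) ∣ (B *ᵥ c) i := by
    intro i
    have h1 := h (Pi.single i 1)
    unfold bRep at h1
    rw [dot_mulVec_comm (B_symm hA), single_dotProduct, one_mul] at h1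
    exact (ZMod.intCast_zmod_eq_zero_iff_dvd _ _).mp h1
  choose w hw using hdiv
  have hBc : B *ᵥ c = (p : ℤ) • w := by
    ext i; rw [hw i]; simp
  have h2 : (p : ℤ) • c = (p : ℤ) • (A *ᵥ w) := by
    rw [← A_mul_B_mulVec hA c, hBc, Matrix.mulVec_smul]
  have hp0 : (p : ℤ) ≠ 0 := by exact_mod_cast (Fact.out : p.Prime).ne_zero
  have h3 : c = A *ᵥ w := by
    ext i
    have := congrFun h2 i
    simp only [Pi.smul_apply, smul_eq_mul] at this
    exact mul_left_cancel₀ hp0 this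
  rw [← cls_zero (A := A)]
  exact cls_eq_iff.mpr ⟨-w, by rw [h3, Matrix.mulVec_neg]; simp⟩

/-- The finite quadratic module `(ℤ⁴/Aℤ⁴, q, b)`. -/
def quadData : QuadData p (Disc A) where
  q d := qRep p B (rep d)
  b d d' := bRep p B (rep d) (rep d')
  s := 1
  s_mul_s := one_mul 1
  q_add h k := by
    have e1 : qRep p B (rep (h + k)) = qRep p B (rep h + rep k) :=
      qRep_congr hA (by rw [cls_rep, cls_add, cls_rep, cls_rep])
    rw [e1, qRep_add hA]
  q_smul n h := by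
    have e1 : qRep p B (rep (n • h)) = qRep p B (n • rep h) :=
      qRep_congr hA (by rw [cls_rep, cls_zsmul, cls_rep])
    rw [e1, qRep_zsmul hA]
  b_add_left h h' k := by
    have e1 : bRep p B (rep (h + h')) (rep k) = bRep p B (rep h + rep h') (rep k) :=
      bRep_congr hA (by rw [cls_rep, cls_add, cls_rep, cls_rep]) rfl
    rw [e1, bRep_add_left hA]
  b_nondeg h hh := by
    by_contra hcon
    rw [not_exists] at hcon
    apply hh
    rw [← cls_rep h]
    apply cls_eq_zero_of_bRep hA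
    intro c'
    have := not_not.mp (hcon (cls A c'))
    rw [← this]
    exact bRep_congr hA rfl (by rw [cls_rep])

lemma quadData_q (c : Fin 4 → ℤ) : (quadData hA).q (cls A c) = qRep p B c :=
  qRep_congr hA (cls_rep _)

lemma quadData_b (c c' : Fin 4 → ℤ) : (quadData hA).b (cls A c) (cls A c') = bRep p B c c' :=
  bRep_congr hA (cls_rep _) (cls_rep _)

lemma quadData_s : (quadData hA).s = 1 := rfl

end

end Lat

end

end Fermat.Agent.S16.H722
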