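import Fermat.Agent.S16.H722.QuadLat
import Fermat.Agent.S16.H756.ThetaSum

set_option autoImplicit false
set_option linter.unusedSectionVars false

namespace Fermat.Agent.S16.H722

open Matrix Complex Real UpperHalfPlane

noncomputable section

namespace Lat

variable {p : ℕ} {A B : Matrix (Fin 4) (Fin 4) ℤ}

/-- general term of the theta series of the dual form -/
def gterm (p : ℕ) (B : Matrix (Fin 4) (Fin 4) ℤ) (z : ℂ) (w : Fin 4 → ℤ) : ℂ :=
  cexp (π * Complex.I * z * ((qf B w : ℤ) : ℂ) / p)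

lemma norm_gterm (z : ℂ) (w : Fin 4 → ℤ) :
    ‖gterm p B z w‖ = rexp (-(π * z.im / p * (qf B w : ℝ))) := by
  rw [gterm, Complex.norm_exp]
  congr 1
  have : (π * Complex.I * z * ((qf B w : ℤ) : ℂ) / p : ℂ) =
      ((π * (qf B w : ℝ) / p : ℝ) : ℂ) * (Complex.I * z) := by
    push_cast; ring
  rw [this, Complex.re_ofReal_mul]
  simp
  ring

variable [Fact p.Prime] (hA : IsGoodLattice p A B)
include hA

lemma p_pos_real : (0 : ℝ) < p := by
  exact_mod_cast (Fact.out : p.Prime).pos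

lemma p_ne_zero_complex : (p : ℂ) ≠ 0 := by
  exact_mod_cast (Fact.out : p.Prime).ne_zero

lemma posDef_B : (B.map (Int.cast : ℤ → ℝ)).PosDef := by
  have hAr := hA.posDef
  have hmul : A.map (Int.cast : ℤ → ℝ) * B.map (Int.cast : ℤ → ℝ) =
      (p : ℝ) • (1 : Matrix (Fin 4) (Fin 4) ℝ) := by
    have h1 : (A * B).map (Int.castRingHom ℝ) = ((p : ℤ) • (1 : Matrix (Fin 4) (Fin 4) ℤ)).map
        (Int.castRingHom ℝ) := by rw [hA.mul_eq]
    rw [Matrix.map_mul] at h1
    have h2 : ((p : ℤ) • (1 : Matrix (Fin 4) (Fin 4) ℤ)).map (Int.castRingHom ℝ) =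
        (p : ℝ) • (1 : Matrix (Fin 4) (Fin 4) ℝ) := by
      ext i j
      simp only [Matrix.map_apply, Matrix.smul_apply, Matrix.one_apply, smul_eq_mul,
        Int.coe_castRingHom]
      split_ifs <;> simp
    rw [h2] at h1
    exact h1
  have hu : IsUnit (A.map (Int.cast : ℤ → ℝ)).det :=
    (Matrix.isUnit_iff_isUnit_det _).mp hAr.isUnit
  have hB : B.map (Int.cast : ℤ → ℝ) = (p : ℝ) • (A.map (Int.cast : ℤ → ℝ))⁻¹ := by
    calc B.map (Int.cast : ℤ → ℝ)
        = (A.map (Int.cast : ℤ → ℝ))⁻¹ * (A.map (Int.cast : ℤ → ℝ) * B.map (Int.cast : ℤ → ℝ)) :=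
          (Matrix.nonsing_inv_mul_cancel_left _ _ hu).symm
      _ = (p : ℝ) • (A.map (Int.cast : ℤ → ℝ))⁻¹ := by
          rw [hmul, Matrix.mul_smul, Matrix.mul_one]
  rw [hB]
  exact hAr.inv.smul (p_pos_real hA)

lemma qfB_cast (w : Fin 4 → ℤ) :
    H756.qf (H756.mR B) (H756.vR w) = ((qf B w : ℤ) : ℝ) := by
  rw [H756.qf_mR]; rfl

lemma qfB_nonneg (w : Fin 4 → ℤ) : (0 : ℝ) ≤ (qf B w : ℝ) := by
  rw [← qfB_cast hA]
  exact H756.qf_nonneg_of_posDef (posDef_B hA) _

lemma summable_rexp_qfB {c : ℝ} (hc : 0 < c) :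
    Summable (fun w : Fin 4 → ℤ => rexp (-(c * (qf B w : ℝ)))) := by
  have := H756.summable_exp_neg_qf (M := H756.mR B) (posDef_B hA) hc
  refine this.congr fun w => ?_
  rw [qfB_cast hA]

lemma summable_gterm {z : ℂ} (hz : 0 < z.im) : Summable (gterm p B z) := by
  apply Summable.of_norm
  have hc : 0 < π * z.im / p := by
    have := p_pos_real hA
    positivity
  exact (summable_rexp_qfB hA hc).congr (fun w => (norm_gterm z w).symm)

lemma add_mulVec_injective (y : Fin 4 → ℤ) :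
    Function.Injective (fun x : Fin 4 → ℤ => y + A *ᵥ x) := by
  intro x x' h
  exact A_mulVec_injective hA (add_left_cancel h)

lemma summable_gterm_coset {z : ℂ} (hz : 0 < z.im) (y : Fin 4 → ℤ) :
    Summable (fun x : Fin 4 → ℤ => gterm p B z (y + A *ᵥ x)) :=
  (summable_gterm hA hz).comp_injective (add_mulVec_injective hA y)

lemma thetaChar_eq_tsum (y : Fin 4 → ℤ) (z : ℍ) :
    thetaChar p A B y z = ∑' x : Fin 4 → ℤ, gterm p B z (y + A *ᵥ x) := by
  unfold thetaChar gterm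
  refine tsum_congr fun x => ?_
  rw [qfB_add_mulVec hA]
  congr 1
  have := p_ne_zero_complex hA
  push_cast
  field_simp
  ring

lemma thetaChar_add_mulVec (y x' : Fin 4 → ℤ) (z : ℍ) :
    thetaChar p A B (y + A *ᵥ x') z = thetaChar p A B y z := by
  rw [thetaChar_eq_tsum hA, thetaChar_eq_tsum hA]
  rw [← (Equiv.addLeft x').tsum_eq (fun x => gterm p B z (y + A *ᵥ x))]
  refine tsum_congr fun x => ?_
  simp [Matrix.mulVec_add, add_assoc]

lemma thetaChar_congr {y y' : Fin 4 → ℤ} (h : cls A y = cls A y') (z : ℍ) :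
    thetaChar p A B y z = thetaChar p A B y' z := by
  obtain ⟨x, rfl⟩ := cls_eq_iff.mp h
  rw [thetaChar_add_mulVec hA]

lemma thetaFun_eq (z : ℍ) : thetaFun A z = thetaChar p A B 0 z := by
  unfold thetaFun thetaChar
  refine tsum_congr fun x => ?_
  simp [qf]

end Lat

end

end Fermat.Agent.S16.H722
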