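import Fermat.Agent.S16.H722.ThetaTS

set_option autoImplicit false
set_option linter.unusedSectionVars false

namespace Fermat.Agent.S16.H722

open Matrix Complex Real UpperHalfPlane ModularForm MatrixGroups CongruenceSubgroup
open scoped ModularForm Manifold

noncomputable section

namespace Lat

variable {p : ℕ} {A B : Matrix (Fin 4) (Fin 4) ℤ}
variable [Fact p.Prime] (hA : IsGoodLattice p A B)
include hA

/-! ### analytic properties -/

lemma norm_gterm_le {ε : ℝ} {z : ℂ} (hz : ε ≤ z.im) (w : Fin 4 → ℤ) :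
    ‖gterm p B z w‖ ≤ rexp (-(π * ε / p * (qf B w : ℝ))) := by
  rw [norm_gterm, Real.exp_le_exp, neg_le_neg_iff]
  have h1 := qfB_nonneg hA w
  have h2 := p_pos_real hA
  have h3 : π * ε / p ≤ π * z.im / p := by gcongr
  exact mul_le_mul_of_nonneg_right h3 h1

lemma differentiableOn_tsum_gterm (y : Fin 4 → ℤ) :
    DifferentiableOn ℂ (fun w : ℂ => ∑' x : Fin 4 → ℤ, gterm p B w (y + A *ᵥ x))
      {z : ℂ | 0 < z.im} := by
  intro w₀ hw₀
  have hw₀' : 0 < w₀.im := hw₀
  set ε : ℝ := w₀.im / 2 with hε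
  have hεpos : 0 < ε := by positivity
  have hU : IsOpen {z : ℂ | ε < z.im} := isOpen_lt continuous_const Complex.continuous_im
  have hmem : w₀ ∈ {z : ℂ | ε < z.im} := by
    show ε < w₀.im
    rw [hε]; linarith
  have hc : 0 < π * ε / p := by
    have := p_pos_real hA
    positivity
  have hsum : Summable (fun x : Fin 4 → ℤ => rexp (-(π * ε / p * (qf B (y + A *ᵥ x) : ℝ)))) :=
    (summable_rexp_qfB hA hc).comp_injective (add_mulVec_injective hA y)
  have hdiff : DifferentiableOn ℂ (fun w : ℂ => ∑' x : Fin 4 → ℤ, gterm p B w (y + A *ᵥ x))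
      {z : ℂ | ε < z.im} := by
    refine differentiableOn_tsum_of_summable_norm hsum (fun x => ?_) hU (fun x w hw => ?_)
    · unfold gterm
      fun_prop
    · exact norm_gterm_le hA (le_of_lt hw) _
  exact ((hdiff w₀ hmem).differentiableAt (hU.mem_nhds hmem)).differentiableWithinAt

lemma mdifferentiable_thetaChar (y : Fin 4 → ℤ) : MDiff (fun z : ℍ => thetaChar p A B y z) := by
  rw [UpperHalfPlane.mdifferentiable_iff]
  refine (differentiableOn_tsum_gterm hA y).congr fun w hw => ?_
  have hw' : 0 < w.im := hw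
  simp only [Function.comp_apply]
  rw [thetaChar_eq_tsum hA, ofComplex_apply_of_im_pos hw']

lemma isBoundedAtImInfty_thetaChar (y : Fin 4 → ℤ) :
    IsBoundedAtImInfty (fun z : ℍ => thetaChar p A B y z) := by
  rw [UpperHalfPlane.isBoundedAtImInfty_iff]
  have hc : 0 < π * 1 / p := by
    have := p_pos_real hA
    positivity
  have hsum : Summable (fun x : Fin 4 → ℤ => rexp (-(π * 1 / p * (qf B (y + A *ᵥ x) : ℝ)))) :=
    (summable_rexp_qfB hA hc).comp_injective (add_mulVec_injective hA y)
  refine ⟨∑' x : Fin 4 → ℤ, rexp (-(π * 1 / p * (qf B (y + A *ᵥ x) : ℝ))), 1, fun z hz => ?_⟩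
  rw [thetaChar_eq_tsum hA]
  have hz' : (1 : ℝ) ≤ (z : ℂ).im := hz
  have hn : Summable (fun x : Fin 4 → ℤ => ‖gterm p B z (y + A *ᵥ x)‖) :=
    (summable_gterm_coset hA z.im_pos y).norm
  refine (norm_tsum_le_tsum_norm hn).trans ?_
  exact hn.tsum_le_tsum (fun x => norm_gterm_le hA hz' _) hsum

/-! ### non-vanishing -/

lemma thetaChar_zero_ne_zero : (fun z : ℍ => thetaChar p A B 0 z) ≠ 0 := by
  intro h
  have h1 := congrFun h UpperHalfPlane.I
  simp only [Pi.zero_apply] at h1
  rw [thetaChar_eq_tsum hA] at h1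
  -- all terms are positive reals
  have hterm : ∀ x : Fin 4 → ℤ, gterm p B (UpperHalfPlane.I : ℍ) (0 + A *ᵥ x) =
      ((rexp (-(π * 1 / p * (qf B (0 + A *ᵥ x) : ℝ))) : ℝ) : ℂ) := by
    intro x
    unfold gterm
    rw [UpperHalfPlane.coe_I]
    push_cast
    congr 1
    have : Complex.I * Complex.I = -1 := Complex.I_mul_I
    linear_combination (π * ((qf B (0 + A *ᵥ x) : ℤ) : ℂ) / p) * this
  simp_rw [hterm] at h1
  rw [← Complex.ofReal_tsum] at h1
  have h2 : (∑' x : Fin 4 → ℤ, rexp (-(π * 1 / p * (qf B (0 + A *ᵥ x) : ℝ)))) = 0 := by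
    exact_mod_cast h1
  have hc : 0 < π * 1 / p := by
    have := p_pos_real hA
    positivity
  have hsum : Summable (fun x : Fin 4 → ℤ => rexp (-(π * 1 / p * (qf B (0 + A *ᵥ x) : ℝ)))) :=
    (summable_rexp_qfB hA hc).comp_injective (add_mulVec_injective hA 0)
  have h3 := hsum.le_tsum 0 (fun j _ => (Real.exp_pos _).le)
  rw [h2] at h3
  exact absurd h3 (not_le.mpr (Real.exp_pos _))

/-! ### the Weil system of the lattice -/

/-- The Weil system attached to a good lattice with theta inversion. -/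
def weilSystem [Fintype (Disc A)] (hinv : ThetaInv p A B) : WeilSystem p (Disc A) where
  toQuadData := quadData hA
  card_eq := by
    rw [← Nat.card_eq_fintype_card]
    exact card_disc hA
  Θ d := fun z => thetaChar p A B (rep d) z
  slash_T h := by
    ext z
    rw [SL_slash_apply, UpperHalfPlane.modular_T_smul, ModularGroup.denom_apply]
    simp only [ModularGroup.coe_T, Pi.smul_apply, smul_eq_mul]
    rw [thetaChar_T hA]
    simp [quadData]
  slash_S h := by
    ext z
    rw [SL_slash_apply, ModularGroup.denom_S, thetaChar_S hA hinv]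
    have hz : (z : ℂ) ≠ 0 := UpperHalfPlane.ne_zero z
    have hp := p_ne_zero_complex hA
    simp only [Pi.smul_apply, smul_eq_mul, Finset.sum_apply]
    have e1 : ∀ k : Disc A, QuadData.e p ((quadData hA).s * (quadData hA).b h k) =
        ZMod.stdAddChar (bRep p B (rep h) (rep k)) := by
      intro k
      simp [quadData]
    simp_rw [e1]
    have hz2 : (z : ℂ) ^ (-2 : ℤ) = ((z : ℂ) ^ 2)⁻¹ := by
      rw [_root_.zpow_neg]
      norm_cast
    rw [hz2]
    field_simp
  ne_zero := by
    have h0 : (fun z : ℍ => thetaChar p A B (rep (0 : Disc A)) z) =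
        fun z : ℍ => thetaChar p A B 0 z := by
      funext z
      exact thetaChar_congr hA (by rw [cls_rep, cls_zero]) z
    rw [h0]
    exact thetaChar_zero_ne_zero hA

lemma weilSystem_Θ_zero [Fintype (Disc A)] (hinv : ThetaInv p A B) :
    (weilSystem hA hinv).Θ 0 = thetaFun A := by
  funext z
  show thetaChar p A B (rep (0 : Disc A)) z = thetaFun A z
  rw [thetaFun_eq hA]
  exact thetaChar_congr hA (by rw [cls_rep, cls_zero]) z

end Lat

open Fermat.Agent.S20 (MF SF)

/-- **WP TH (main)**, exact skeleton shape: the theta series of a good lattice is a weight `2`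
modular form on `Γ₀(p)`. -/
theorem theta_mem_MF (p : ℕ) [Fact p.Prime] (A B : Matrix (Fin 4) (Fin 4) ℤ)
    (hA : IsGoodLattice p A B) (hinv : ThetaInv p A B) :
    thetaFun A ∈ MF (Gamma0 p) 2 := by
  have : Finite (Lat.Disc A) := Lat.finite_disc hA
  let _ : Fintype (Lat.Disc A) := Fintype.ofFinite _
  have h0 := Lat.weilSystem_Θ_zero hA hinv
  rw [← h0]
  refine ⟨Lat.mdifferentiable_thetaChar hA _, fun γ hγ => ?_, fun γ => ?_⟩
  · exact (Lat.weilSystem hA hinv).slash_Gamma0 γ hγ
  · exact (Lat.weilSystem hA hinv).isBoundedAtImInfty_slash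
      (fun h => Lat.isBoundedAtImInfty_thetaChar hA _) γ

end

end Fermat.Agent.S16.H722
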