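import Fermat.Agent.S16.H722.ThetaAn
import Fermat.Agent.S16.H722.Weil

set_option autoImplicit false
set_option linter.unusedSectionVars false

namespace Fermat.Agent.S16.H722

open Matrix Complex Real UpperHalfPlane ModularForm MatrixGroups CongruenceSubgroup
open scoped ModularForm Manifold

noncomputable section

namespace Lat

variable {p : ℕ} {A B : Matrix (Fin 4) (Fin 4) ℤ}
variable [Fact p.Prime] (hA : IsGoodLattice p A B)
include hA

/-! ### the `T`-transformation -/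

lemma stdAddChar_int (m : ℤ) :
    (ZMod.stdAddChar ((m : ℤ) : ZMod p) : ℂ) = cexp (2 * π * Complex.I * m / p) :=
  ZMod.stdAddChar_coe m

lemma gterm_add_one (z : ℂ) (y x : Fin 4 → ℤ) :
    gterm p B (z + 1) (y + A *ᵥ x) =
      ZMod.stdAddChar (qRep p B y) * gterm p B z (y + A *ᵥ x) := by
  have hp := p_ne_zero_complex hA
  have h1 := qfB_add_mulVec hA y x
  have h3 := two_mul_half hA y
  have h4 := two_mul_half_A hA x
  set m : ℤ := qf B y / 2 with hm
  set t : ℤ := x ⬝ᵥ y + qf A x / 2 with ht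
  have hn : qf B (y + A *ᵥ x) = 2 * m + 2 * p * t := by
    rw [h1, ht]
    linear_combination (-1 : ℤ) * h3 - (p : ℤ) * h4
  unfold qRep gterm
  rw [← hm, stdAddChar_int hA, ← Complex.exp_add]
  have e1 : cexp (π * Complex.I * (z + 1) * ((qf B (y + A *ᵥ x) : ℤ) : ℂ) / p) =
      cexp (2 * π * Complex.I * m / p + π * Complex.I * z * ((qf B (y + A *ᵥ x) : ℤ) : ℂ) / p)
        * cexp ((t : ℂ) * (2 * π * Complex.I)) := by
    rw [← Complex.exp_add]
    congr 1
    rw [hn]
    push_cast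
    field_simp
    ring
  rw [e1, Complex.exp_int_mul_two_pi_mul_I, mul_one]

lemma thetaChar_T (y : Fin 4 → ℤ) (z : ℍ) :
    thetaChar p A B y ((1 : ℝ) +ᵥ z) = ZMod.stdAddChar (qRep p B y) * thetaChar p A B y z := by
  rw [thetaChar_eq_tsum hA, thetaChar_eq_tsum hA, ← tsum_mul_left]
  refine tsum_congr fun x => ?_
  rw [← gterm_add_one hA]
  congr 1
  rw [UpperHalfPlane.coe_vadd]
  push_cast
  ring

/-! ### the `S`-transformation -/

lemma norm_stdAddChar (x : ZMod p) : ‖(ZMod.stdAddChar x : ℂ)‖ = 1 :=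
  AddChar.norm_apply _ _

omit hA in
/-- the general term of the right hand side of the inversion formula -/
def sterm (p : ℕ) [NeZero p] (B : Matrix (Fin 4) (Fin 4) ℤ) (y : Fin 4 → ℤ) (z : ℂ)
    (w : Fin 4 → ℤ) : ℂ :=
  gterm p B z w * ZMod.stdAddChar (bRep p B w y)

lemma summable_sterm (y : Fin 4 → ℤ) {z : ℂ} (hz : 0 < z.im) : Summable (sterm p B y z) := by
  apply Summable.of_norm
  have := (summable_gterm hA hz).norm
  refine this.congr fun w => ?_
  unfold sterm
  rw [norm_mul, norm_stdAddChar hA, mul_one]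

lemma inv_term_eq (y : Fin 4 → ℤ) (z : ℂ) (w : Fin 4 → ℤ) :
    cexp (π * Complex.I * z * ((qf B w : ℂ) / p) +
        2 * π * Complex.I * (((w ⬝ᵥ B.mulVec y : ℤ) : ℂ) / p)) = sterm p B y z w := by
  unfold sterm gterm bRep
  rw [stdAddChar_int hA, ← Complex.exp_add]
  congr 1
  ring

/-- the fibre of `cls` over the class of `r` is `r + A ℤ⁴` -/
def fibreEquiv (r : Fin 4 → ℤ) : (Fin 4 → ℤ) ≃ ↥(cls A ⁻¹' {cls A r}) :=
  Equiv.ofBijective (fun x => ⟨r + A *ᵥ x, by
      simp only [Set.mem_preimage, Set.mem_singleton_iff]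
      exact (cls_eq_iff.mpr ⟨x, rfl⟩).symm⟩) <| by
    constructor
    · intro x y hxy
      exact add_mulVec_injective hA r (congrArg Subtype.val hxy)
    · rintro ⟨w, hw⟩
      simp only [Set.mem_preimage, Set.mem_singleton_iff] at hw
      obtain ⟨x, hx⟩ := cls_eq_iff.mp hw.symm
      exact ⟨x, Subtype.ext hx.symm⟩

lemma tsum_fibre (F : (Fin 4 → ℤ) → ℂ) (k : Disc A) :
    ∑' w : ↥(cls A ⁻¹' {k}), F w = ∑' x : Fin 4 → ℤ, F (rep k + A *ᵥ x) := by
  have hk : cls A (rep k) = k := cls_rep k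
  have : ∑' w : ↥(cls A ⁻¹' {cls A (rep k)}), F w = ∑' x : Fin 4 → ℤ, F (rep k + A *ᵥ x) := by
    rw [← (fibreEquiv hA (rep k)).tsum_eq]
    rfl
  rw [hk] at this
  exact this

lemma tsum_sterm [Fintype (Disc A)] (y : Fin 4 → ℤ) (z : ℍ) :
    ∑' w : Fin 4 → ℤ, sterm p B y z w =
      ∑ k : Disc A, ZMod.stdAddChar (bRep p B y (rep k)) * thetaChar p A B (rep k) z := by
  have hs := (summable_sterm hA y z.im_pos).hasSum
  have h1 := hs.tsum_fiberwise (cls A)
  have h2 := h1.unique (hasSum_fintype _)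
  rw [h2]
  refine Finset.sum_congr rfl fun k _ => ?_
  rw [tsum_fibre hA, thetaChar_eq_tsum hA, ← tsum_mul_left]
  refine tsum_congr fun x => ?_
  unfold sterm
  rw [bRep_add_mulVec_left hA, bRep_comm hA, mul_comm]

lemma thetaChar_S [Fintype (Disc A)] (hinv : ThetaInv p A B) (y : Fin 4 → ℤ) (z : ℍ) :
    thetaChar p A B y (ModularGroup.S • z) =
      -(z : ℂ) ^ 2 / p *
        ∑ k : Disc A, ZMod.stdAddChar (bRep p B y (rep k)) * thetaChar p A B (rep k) z := by
  rw [hinv y z, ← tsum_sterm hA]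
  congr 1
  refine tsum_congr fun w => ?_
  exact inv_term_eq hA y z w

end Lat

end

end Fermat.Agent.S16.H722
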